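/-
GATE-F / GF-SETUP (S0 of GRAPH v1), ruling R4 (helper61): `Y₀ ⊆ Knew = ker α_* ∩ ker β_*`.

* `map_mem_eigQ` : a Galois-equivariant linear map `Kum_m(F_N) → Kum_m(F_{N'})` maps the eigenspace
  `eigQ N` into `eigQ N'` (Eichler–Shimura trick `GK/UQ/ESComm.TEnd_comp_of_gal_comm`);
* `eigQ_eq_bot_of_not` : (helper35's KILLER) if no eigenform of level `N'` is congruent to `a`
  outside `S`, then `eigQ N' p S a = ⊥`;
* `isResiduallyModularOfLevel_of_eigQ_ne_bot` : `eigQ N' p S (a_ℓ(W)) ≠ ⊥ ⟹ W` is residually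
  modular of level `N'` (converse of `GB/A/A6/Supply.eigQ_ne_bot`);
* `aLow_bLow_eq_zero` : at level `M' p` : `W` residually modular of level `M'`, OR `α_*` and
  `β_* = α_* ∘ W_p` kill the eigenspace `eigQ (M' p)`.
-/
import Mathlib
import Fermat.Agent.GB.A.A6.Killer
import Fermat.Agent.GK.UTr.TRInst

set_option autoImplicit false
set_option linter.unusedSectionVars false

noncomputable section

namespace Fermat.Agent.GF.Setup.Knew

open AlgebraicCurve ModularCurve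
open CuspForm ModularFormClass CongruenceSubgroup
open Fermat.Agent.GJ Fermat.Agent.GJ.KumGroup Fermat.Agent.GJ.Kum.KumType
open Fermat.Agent.GK.UQ Fermat.Agent.GK.New Fermat.Agent.GK.Tate.KumHecke
open Fermat.Agent.GK.UTr Fermat.Agent.GK.AL
open Fermat.Agent.GB.A.A6.EigQ Fermat.Agent.GB.A.A6.Killer

local notation "GQ'" => (AlgebraicClosure ℚ ≃ₐ[ℚ] AlgebraicClosure ℚ)

/-! ### Equivariant maps respect the eigenspaces -/

section Map

variable {N N' : ℕ} [NeZero N] [NeZero N'] {m : ℕ} [NeZero m] {S : Finset ℕ}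
  {hNS : ∀ q : ℕ, q.Prime → q ∣ N → q ∈ S} {hN'S : ∀ q : ℕ, q.Prime → q ∣ N' → q ∈ S}
  {a : ℕ → ℤ}

/-- a Galois-equivariant linear map between Kummer groups of two levels maps `eigQ` to `eigQ`. -/
theorem map_mem_eigQ (hmS : ∀ q : ℕ, q.Prime → q ∣ m → q ∈ S)
    (f : Additive (Kum Kb (FK N) m) →ₗ[ZMod m] Additive (Kum Kb (FK N') m))
    (hf : ∀ (σ : GQ') x, f (gal N m σ x) = gal N' m σ (f x))
    {x : Additive (Kum Kb (FK N) m)} (hx : x ∈ eigQ N m S hNS a) :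
    f x ∈ eigQ N' m S hN'S a := by
  have hm : 0 < m := Nat.pos_of_ne_zero (NeZero.ne m)
  rw [mem_eigQ] at hx ⊢
  intro i
  have hnd : ¬ i.1 ∣ N * m := by
    intro h
    rcases (Nat.Prime.dvd_mul i.2.1).mp h with h | h
    · exact i.2.2 (hNS _ i.2.1 h)
    · exact i.2.2 (hmS _ i.2.1 h)
  have hnd' : ¬ i.1 ∣ N' * m := by
    intro h
    rcases (Nat.Prime.dvd_mul i.2.1).mp h with h | h
    · exact i.2.2 (hN'S _ i.2.1 h)
    · exact i.2.2 (hmS _ i.2.1 h)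
  have h := TEnd_comp_of_gal_comm N N' m hm i.2.1 hnd hnd' f hf x
  rw [← h, hx i, map_smul]

end Map

/-! ### The killer: no form of level `N'` ⟹ `eigQ N' = ⊥` -/

section Kill

variable {N' : ℕ} [NeZero N'] {S : Finset ℕ} (hN'S : ∀ q : ℕ, q.Prime → q ∣ N' → q ∈ S)
  (p : ℕ) [Fact p.Prime] (a : ℕ → ℤ)

theorem eigQ_eq_bot_of_not
    (hno : ¬ ∃ (g : CuspForm (Gamma0 N') 2) (𝔪' : Ideal (integralClosure ℤ ℂ)),
      g.IsNormalizedEigenform ∧ 𝔪'.IsMaximal ∧ (p : integralClosure ℤ ℂ) ∈ 𝔪' ∧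
      ∀ ℓ : ℕ, ℓ.Prime → ℓ ∉ S →
        ∃ c : integralClosure ℤ ℂ, (c : ℂ) = qCoeff g ℓ ∧
          c - ((a ℓ : ℤ) : integralClosure ℤ ℂ) ∈ 𝔪') :
    eigQ N' p S hN'S a = ⊥ := by
  obtain ⟨P, hP, hid⟩ := exists_killer hN'S p a hno
  have hp0 : p ≠ 0 := (Fact.out : p.Prime).ne_zero
  rw [eq_bot_iff]
  intro x hx
  have h := hid N' hN'S _ (Complex.isPrimitiveRoot_exp p hp0) x hx
  rw [hP, map_zero, LinearMap.zero_apply] at h
  rw [Submodule.mem_bot]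
  exact h.symm

/-- **converse of `Supply.eigQ_ne_bot`**: a nonzero `a_ℓ(W)`-eigenspace in `Kum_p(F_{N'})` makes `W`
residually modular of level `N'`. -/
theorem isResiduallyModularOfLevel_of_eigQ_ne_bot (W : WeierstrassCurve ℤ)
    (hS : ∀ ℓ : ℕ, ℓ.Prime → W.IsGoodPrimeFor ℓ → ¬ ℓ ∣ N' → ℓ ≠ p → ℓ ∉ S)
    (ha : ∀ ℓ : ℕ, ℓ.Prime → ℓ ∉ S → a ℓ = W.apOfModel ℓ)
    (hQ : eigQ N' p S hN'S a ≠ ⊥) : W.IsResiduallyModularOfLevel p N' := by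
  by_contra hres
  apply hQ
  apply eigQ_eq_bot_of_not hN'S p a
  rintro ⟨g, 𝔪', hg, hmax, hp, hcong⟩
  refine hres ⟨g, 𝔪', hg, hmax, hp, fun ℓ hℓ hgood hℓN' hℓp => ?_⟩
  have hℓS := hS ℓ hℓ hgood hℓN' hℓp
  obtain ⟨c, hc, hc'⟩ := hcong ℓ hℓ hℓS
  exact ⟨c, hc, by rw [← ha ℓ hℓ hℓS]; exact hc'⟩

end Kill

/-! ### `Y₀ ⊆ Knew` -/

section Knew

variable {M' : ℕ} [NeZero M'] {p : ℕ} [Fact p.Prime] (h : ExactDvd p (M' * p)) {S : Finset ℕ}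
  (hMS : ∀ q : ℕ, q.Prime → q ∣ M' * p → q ∈ S) (hpS : p ∈ S) (a : ℕ → ℤ)

include hMS in
/-- the primes of `M'` are in `S` -/
theorem hM'S_of_hMS : ∀ q : ℕ, q.Prime → q ∣ M' → q ∈ S :=
  fun q hq hqM' => hMS q hq (Dvd.dvd.mul_right hqM' p)

include hpS in
/-- **(R4)**: `W` is residually modular of level `M'`, or the degeneracy push-forwards `α_*` and
`β_* = α_* ∘ W_p` kill the `a_ℓ(W)`-eigenspace of `Kum_p(F_{M' p})`. -/
theorem aLow_bLow_eq_zero (W : WeierstrassCurve ℤ)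
    (hS : ∀ ℓ : ℕ, ℓ.Prime → W.IsGoodPrimeFor ℓ → ¬ ℓ ∣ M' → ℓ ≠ p → ℓ ∉ S)
    (ha : ∀ ℓ : ℕ, ℓ.Prime → ℓ ∉ S → a ℓ = W.apOfModel ℓ)
    (hnot : ¬ W.IsResiduallyModularOfLevel p M')
    {x : Additive (Kum Kb (FK (M' * p)) p)} (hx : x ∈ eigQ (M' * p) p S hMS a) :
    aLow M' p p x = 0 ∧ bLow h p x = 0 := by
  have hmS : ∀ q : ℕ, q.Prime → q ∣ p → q ∈ S := fun q hq hqp =>
    ((Nat.prime_dvd_prime_iff_eq hq (Fact.out : p.Prime)).1 hqp) ▸ hpS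
  have hbot : eigQ M' p S (hM'S_of_hMS hMS) a = ⊥ := by
    by_contra hne
    exact hnot (isResiduallyModularOfLevel_of_eigQ_ne_bot (hM'S_of_hMS hMS) p a W hS ha hne)
  constructor
  · have h1 : aLow M' p p x ∈ eigQ M' p S (hM'S_of_hMS hMS) a :=
      map_mem_eigQ hmS (aLow M' p p) (fun σ y => aLow_gal M' p p σ y) hx
    rwa [hbot, Submodule.mem_bot] at h1
  · have h1 : bLow h p x ∈ eigQ M' p S (hM'S_of_hMS hMS) a :=
      map_mem_eigQ hmS (bLow h p) (fun σ y => bLow_gal h p σ y) hx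
    rwa [hbot, Submodule.mem_bot] at h1

end Knew

end Fermat.Agent.GF.Setup.Knew
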