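/-
GATE-F / GF-SETUP (S0 of GRAPH v1), NON-EIS (helper61): for an integral Weierstrass curve `W` with
`W[p]` irreducible and `p` odd, outside every finite set of primes there is a good prime `ℓ ≠ p`
with `a_ℓ(W) ≢ ℓ + 1 (mod p)`.  No modularity input (unlike `GB/Setup/NonEis`), no Brauer–Nesbitt:

if `a_ℓ ≡ ℓ + 1` for almost all `ℓ` then `tr ρ̄(g) = 1 + χ_p(g)` for ALL `g` (Chebotarev,
`ECDet.exists_frob_conj`); in an eigenbasis of complex conjugation `c`, comparing `g` and `c g`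
gives `ρ̄(g) = [[1, b], [c', χ_p(g)]]` with `b c' = 0` (`det ρ̄ = χ_p`); irreducibility gives `g₁`,
`g₂` with `c'(g₁) ≠ 0`, `b(g₂) ≠ 0`, and the `(0,0)`-entry of `ρ̄(g₂ g₁)` is `1 + b(g₂) c'(g₁) ≠ 1`.
-/
import Mathlib
import Fermat.Agent.GB.A.A6.ECDet

set_option autoImplicit false
set_option linter.unusedSectionVars false

namespace Fermat.Agent.GF.Setup.NonEisW

open Fermat.Agent.Common_helper32
open WeierstrassCurve WeierstrassCurve.Affine.Point Fermat.Agent.GE.ECAssembly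
open Fermat.Agent.GJ.CycChar Fermat.Agent.GB.A.A6.DetAbs Fermat.Agent.GB.A.A6.ECDet

variable {W : WeierstrassCurve ℤ} {p : ℕ} [Fact p.Prime]
  (hΔ : W.Δ ≠ 0) (hcard : Nat.card (Tp W p) = p ^ 2) (hirr : W.ModRepIsIrreducible p)
include hΔ hcard hirr

/-- **NON-EIS** (curve side only). -/
theorem exists_prime_ne_succ (hp2 : p ≠ 2) (B : Finset ℕ) :
    ∃ ℓ : ℕ, ℓ.Prime ∧ ℓ ∉ B ∧ W.IsGoodPrimeFor ℓ ∧ ℓ ≠ p ∧
      ((W.apOfModel ℓ : ℤ) : ZMod p) ≠ ((ℓ : ℕ) : ZMod p) + 1 := by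
  classical
  by_contra hcon
  push Not at hcon
  have h2 : (2 : ZMod p) ≠ 0 := by
    intro h
    have : ((2 : ℕ) : ZMod p) = 0 := by exact_mod_cast h
    rw [ZMod.natCast_eq_zero_iff] at this
    exact hp2 ((Nat.prime_dvd_prime_iff_eq (Fact.out : p.Prime) Nat.prime_two).1 this)
  obtain ⟨b, h0, h1⟩ := exists_basis_conj hΔ hcard hirr hp2
  -- traces
  have htr : ∀ g : GQ, (rhoM b g).trace = 1 + ((cyc p g : (ZMod p)ˣ) : ZMod p) := by
    intro g
    obtain ⟨ℓ, A, τ, h, hℓ, hℓB, hℓp, hgood, hA, hτ, hρ, hχ⟩ := exists_frob_conj hΔ hcard g B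
    have e1 : (rhoM b g).trace = (rhoM b τ).trace := by
      rw [rhoM_apply b τ, hρ, ← rhoM_apply, map_mul, map_mul, Matrix.trace_mul_comm, ← mul_assoc,
        ← map_mul, inv_mul_cancel, map_one, one_mul]
    rw [e1, trace_rhoM_frob hΔ hcard hirr b hℓ hℓp hgood A hA τ hτ, hcon ℓ hℓ hℓB hgood hℓp,
      ← hχ, cyc_frob hℓ hℓp hA hτ, add_comm]
  -- the matrix of complex conjugation
  have hc : rhoM b complexConjugation = Matrix.single 0 0 (1 : ZMod p) - Matrix.single 1 1 1 := by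
    ext i j
    rw [rhoM_apply, LinearMap.toMatrixAlgEquiv_apply]
    fin_cases i <;> fin_cases j <;> simp [h0, h1, Matrix.single]
  -- shape of every `ρ̄(g)`
  have hshape : ∀ g : GQ, rhoM b g 0 0 = 1 ∧ rhoM b g 0 1 * rhoM b g 1 0 = 0 := by
    intro g
    have t1 := htr g
    have t2 := htr (complexConjugation * g)
    rw [map_mul (cyc p), Units.val_mul, cyc_conj, map_mul, hc, Matrix.trace_fin_two] at t2
    rw [Matrix.trace_fin_two] at t1
    simp only [Matrix.sub_mul, Matrix.sub_apply, Matrix.single_mul_apply_same,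
      Matrix.single_mul_apply_of_ne, one_mul, ne_eq, zero_ne_one, one_ne_zero, not_false_eq_true,
      Fin.isValue, sub_zero, zero_sub] at t2
    have e00 : rhoM b g 0 0 = 1 := by
      have : (2 : ZMod p) * rhoM b g 0 0 = 2 * 1 := by linear_combination t1 + t2
      exact mul_left_cancel₀ h2 this
    have e11 : rhoM b g 1 1 = ((cyc p g : (ZMod p)ˣ) : ZMod p) := by
      linear_combination t1 - e00
    have hd := det_rhoM hΔ hcard hirr b g
    rw [Matrix.det_fin_two, e00, e11] at hd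
    exact ⟨e00, by linear_combination -hd⟩
  -- irreducibility: neither coordinate line is stable
  have h21 : ∃ g : GQ, rhoM b g 1 0 ≠ 0 := by
    obtain ⟨g, hg⟩ := exists_not_mem_span hcard hirr (b.ne_zero 0)
    refine ⟨g, fun h => hg ?_⟩
    have hsum := b.sum_repr (rho W p g (b 0))
    rw [Fin.sum_univ_two] at hsum
    have hz : b.repr (rho W p g (b 0)) 1 = 0 := by
      rw [rhoM_apply, LinearMap.toMatrixAlgEquiv_apply] at h
      exact h
    rw [hz, zero_smul, add_zero] at hsum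
    rw [← hsum]
    exact Submodule.smul_mem _ _ (Submodule.mem_span_singleton_self _)
  have h12 : ∃ g : GQ, rhoM b g 0 1 ≠ 0 := by
    obtain ⟨g, hg⟩ := exists_not_mem_span hcard hirr (b.ne_zero 1)
    refine ⟨g, fun h => hg ?_⟩
    have hsum := b.sum_repr (rho W p g (b 1))
    rw [Fin.sum_univ_two] at hsum
    have hz : b.repr (rho W p g (b 1)) 0 = 0 := by
      rw [rhoM_apply, LinearMap.toMatrixAlgEquiv_apply] at h
      exact h
    rw [hz, zero_smul, zero_add] at hsum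
    rw [← hsum]
    exact Submodule.smul_mem _ _ (Submodule.mem_span_singleton_self _)
  obtain ⟨g₁, hg₁⟩ := h21
  obtain ⟨g₂, hg₂⟩ := h12
  have hprod := (hshape (g₂ * g₁)).1
  rw [map_mul, Matrix.mul_apply, Fin.sum_univ_two, (hshape g₂).1, (hshape g₁).1, one_mul] at hprod
  have : rhoM b g₂ 0 1 * rhoM b g₁ 1 0 = 0 := by linear_combination hprod
  rcases mul_eq_zero.1 this with h | h
  · exact hg₂ h
  · exact hg₁ h

end Fermat.Agent.GF.Setup.NonEisW
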