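/-
GATE-F / GF-SETUP (S0 of GRAPH v1), the plane `Y₀` (helper61).

`W/ℤ` an integral Weierstrass curve with `W[p]` irreducible, `p` odd; `Q = eigQ M p S a` the
`a_ℓ(W)`-eigenspace of `V = Kum_p(F_M)` (`p ∣ M` allowed).  If `Q ≠ 0` then `Q` contains a
`G_ℚ`-equivariant copy of `W[p]` (Boston–Lenstra–Ribet, `GB/A/A6/Inertia.exists_algHom_eigQ`, + the
abstract `Y0Abs.exists_embedding`).

* `Copy W p M` : a `G_ℚ`-equivariant injective linear map `e : W[p] → Kum_p(F_M)`;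
  `C.Y0 := range e`, `C.equiv : W[p] ≃ₗ Y₀`;
* `Copy.gal_mem`, `Copy.finrank_Y0`, `Copy.det_restrict` (`det(g | Y₀) = χ_p(g)`),
  `Copy.eq_bot_or_eq` (`Y₀` is a simple `G_ℚ`-module), `Copy.gal_eq_iff`, `Copy.gal_eq_self_iff`
  (`g` fixes `Y₀` pointwise iff it fixes `W[p]` pointwise: `ℚ(Y₀) = ℚ(W[p])`);
* `exists_copy` : existence, with `Y₀ ≤ eigQ`; `Copy.kumTl_eq` : `T_ℓ = a_ℓ(W)` on `Y₀`.
-/
import Mathlib
import Fermat.Agent.GF.Setup.Y0Abs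
import Fermat.Agent.GB.A.A6.Inertia

set_option autoImplicit false
set_option linter.unusedSectionVars false

noncomputable section

namespace Fermat.Agent.GF.Setup.Plane

open AlgebraicCurve
open Fermat.Agent.GJ Fermat.Agent.GJ.KumGroup Fermat.Agent.GJ.Kum.KumType
open Fermat.Agent.GK.UQ Fermat.Agent.GK.New
open Fermat.Agent.GJ.CycChar Fermat.Agent.GB.A.A6.ECDet Fermat.Agent.GB.A.A6.EigQ
open Fermat.Agent.GB.A.A6.Abs Fermat.Agent.GB.A.A6.Inertia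

local notation "GQ'" => (AlgebraicClosure ℚ ≃ₐ[ℚ] AlgebraicClosure ℚ)

/-- a `G_ℚ`-equivariant copy of `W[p]` inside `Kum_p(F_M)`. -/
structure Copy (W : WeierstrassCurve ℤ) (p : ℕ) [Fact p.Prime] (M : ℕ) [NeZero M] where
  /-- the embedding -/
  e : Tp W p →ₗ[ZMod p] Additive (Kum Kb (FK M) p)
  inj : Function.Injective e
  equivariant : ∀ (g : GQ') (x : Tp W p), e (rho W p g x) = gal M p g (e x)

namespace Copy

variable {W : WeierstrassCurve ℤ} {p : ℕ} [Fact p.Prime] {M : ℕ} [NeZero M] (C : Copy W p M)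

/-- **the plane `Y₀`** -/
def Y0 : Submodule (ZMod p) (Additive (Kum Kb (FK M) p)) := LinearMap.range C.e

/-- `W[p] ≃ Y₀` -/
def equiv : Tp W p ≃ₗ[ZMod p] C.Y0 := LinearEquiv.ofInjective C.e C.inj

theorem coe_equiv (x : Tp W p) : ((C.equiv x : C.Y0) : Additive (Kum Kb (FK M) p)) = C.e x := rfl

theorem e_mem (x : Tp W p) : C.e x ∈ C.Y0 := LinearMap.mem_range_self _ x

theorem exists_of_mem {y : Additive (Kum Kb (FK M) p)} (hy : y ∈ C.Y0) : ∃ x : Tp W p, C.e x = y :=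
  hy

/-- `Y₀` is Galois-stable. -/
theorem gal_mem (g : GQ') {y : Additive (Kum Kb (FK M) p)} (hy : y ∈ C.Y0) :
    gal M p g y ∈ C.Y0 := by
  obtain ⟨x, rfl⟩ := hy
  rw [← C.equivariant]
  exact C.e_mem _

/-- `equiv` is `G_ℚ`-equivariant. -/
theorem equiv_rho (g : GQ') (x : Tp W p) :
    ((C.equiv (rho W p g x) : C.Y0) : Additive (Kum Kb (FK M) p)) = gal M p g (C.equiv x) := by
  rw [coe_equiv, coe_equiv, C.equivariant]

/-- the restriction of `g` to `Y₀` is the conjugate of `ρ̄(g)`. -/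
theorem restrict_eq_conj (g : GQ') (h : ∀ y ∈ C.Y0, gal M p g y ∈ C.Y0) :
    (gal M p g).restrict h
      = (C.equiv : Tp W p →ₗ[ZMod p] C.Y0) ∘ₗ rho W p g ∘ₗ
          (C.equiv.symm : C.Y0 →ₗ[ZMod p] Tp W p) := by
  refine LinearMap.ext fun y => Subtype.ext ?_
  obtain ⟨x, rfl⟩ := C.equiv.surjective y
  rw [LinearMap.coe_restrict_apply, LinearMap.comp_apply, LinearMap.comp_apply,
    LinearEquiv.coe_coe, LinearEquiv.coe_coe, LinearEquiv.symm_apply_apply, C.equiv_rho]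

theorem finrank_Y0 (hcard : Nat.card (Tp W p) = p ^ 2) :
    Module.finrank (ZMod p) C.Y0 = 2 := by
  rw [← C.equiv.finrank_eq, finrank_Tp hcard]

/-- **`det(g | Y₀) = χ_p(g)`** -/
theorem det_restrict (hΔ : W.Δ ≠ 0) (hcard : Nat.card (Tp W p) = p ^ 2)
    (hirr : W.ModRepIsIrreducible p) (g : GQ') (h : ∀ y ∈ C.Y0, gal M p g y ∈ C.Y0) :
    LinearMap.det ((gal M p g).restrict h) = ((cyc p g : (ZMod p)ˣ) : ZMod p) := by
  rw [C.restrict_eq_conj g h, LinearMap.det_conj, det_rho hΔ hcard hirr]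

/-- **`Y₀` is a simple `G_ℚ`-module.** -/
theorem eq_bot_or_eq (hirr : W.ModRepIsIrreducible p)
    (Z : Submodule (ZMod p) (Additive (Kum Kb (FK M) p))) (hZ : Z ≤ C.Y0)
    (hstab : ∀ (g : GQ'), ∀ z ∈ Z, gal M p g z ∈ Z) : Z = ⊥ ∨ Z = C.Y0 := by
  have hst : WeierstrassCurve.Affine.Point.IsGaloisStable (K := AlgebraicClosure ℚ) ℚ
      (Z.comap C.e) := by
    intro σ x hx
    rw [Submodule.mem_comap] at hx ⊢
    have h1 : σ • x = rho W p σ x :=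
      (WeierstrassCurve.Affine.Point.galoisRepModuleEnd_apply (S := ℚ) _ _ σ x).symm
    rw [h1, C.equivariant]
    exact hstab σ _ hx
  rcases hirr.2 _ hst with h | h
  · left
    rw [eq_bot_iff]
    intro z hz
    obtain ⟨x, rfl⟩ := hZ hz
    have hx : x ∈ Z.comap C.e := hz
    rw [h, Submodule.mem_bot] at hx
    rw [hx, map_zero]
    exact Submodule.zero_mem _
  · right
    refine le_antisymm hZ ?_
    rintro _ ⟨x, rfl⟩
    have hx : x ∈ Z.comap C.e := by rw [h]; trivial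
    exact hx

/-- `σ` and `τ` agree on `Y₀` iff they agree on `W[p]`. -/
theorem gal_eq_iff (σ τ : GQ') :
    (∀ y ∈ C.Y0, gal M p σ y = gal M p τ y) ↔ rho W p σ = rho W p τ := by
  constructor
  · intro h
    refine LinearMap.ext fun x => C.inj ?_
    rw [C.equivariant, C.equivariant]
    exact h _ (C.e_mem x)
  · rintro h _ ⟨x, rfl⟩
    rw [← C.equivariant, ← C.equivariant, h]

/-- `σ` fixes `Y₀` pointwise iff it fixes `W[p]` pointwise: `ℚ(Y₀) = ℚ(W[p])`. -/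
theorem gal_eq_self_iff (σ : GQ') :
    (∀ y ∈ C.Y0, gal M p σ y = y) ↔ rho W p σ = 1 := by
  rw [← map_one (rho W p), ← C.gal_eq_iff σ 1]
  refine forall₂_congr fun y _ => ?_
  rw [(gal M p).map_one]
  rfl

/-- `T_ℓ = a_ℓ` on `Y₀` when `Y₀ ≤ eigQ`. -/
theorem kumTl_eq {S : Finset ℕ} {hMS : ∀ q : ℕ, q.Prime → q ∣ M → q ∈ S} {a : ℕ → ℤ}
    (hle : C.Y0 ≤ eigQ M p S hMS a) {y : Additive (Kum Kb (FK M) p)} (hy : y ∈ C.Y0)
    {ℓ : ℕ} (hℓ : ℓ.Prime) (hℓS : ℓ ∉ S) (hℓM : ¬ ℓ ∣ M) :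
    kumTl M p hℓ hℓM y = ((a ℓ : ℤ) : ZMod p) • y :=
  kumTl_eq_of_mem (hle hy) hℓ hℓS hℓM

end Copy

/-! ### Existence -/

section Exists

variable {M : ℕ} [NeZero M] {p : ℕ} [Fact p.Prime] {W : WeierstrassCurve ℤ}
  (hΔ : W.Δ ≠ 0) (hcard : Nat.card (Tp W p) = p ^ 2) (hirr : W.ModRepIsIrreducible p)
  (hp2 : p ≠ 2) (S : Finset ℕ) (hMS : ∀ q : ℕ, q.Prime → q ∣ M → q ∈ S) (hpS : p ∈ S)
  (a : ℕ → ℤ) (ha : ∀ ℓ : ℕ, ℓ.Prime → ℓ ∉ S → W.IsGoodPrimeFor ℓ → a ℓ = W.apOfModel ℓ)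
include hΔ hcard hirr hp2 hpS ha

/-- **S0**: a nonzero `ρ̄`-eigenspace `eigQ ⊆ Kum_p(F_M)` contains a `G_ℚ`-equivariant copy `Y₀` of
`W[p]`. -/
theorem exists_copy (hQ : eigQ M p S hMS a ≠ ⊥) :
    ∃ C : Copy W p M, C.Y0 ≤ eigQ M p S hMS a := by
  obtain ⟨b, h0, h1⟩ := exists_basis_conj hΔ hcard hirr hp2
  obtain ⟨Φ, hΦ⟩ := exists_algHom_eigQ (M := M) hΔ hcard hirr hp2 S hMS hpS a ha b h0 h1
  have : Nontrivial (eigQ M p S hMS a) := Submodule.nontrivial_iff_ne_bot.2 hQ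
  obtain ⟨ι, hinj, hι⟩ := Y0Abs.exists_embedding Φ
  let e : Tp W p →ₗ[ZMod p] Additive (Kum Kb (FK M) p) :=
    (eigQ M p S hMS a).subtype ∘ₗ ι ∘ₗ (b.equivFun : Tp W p →ₗ[ZMod p] (Fin 2 → ZMod p))
  have he : ∀ x, e x = ((ι (b.equivFun x) : eigQ M p S hMS a) : Additive (Kum Kb (FK M) p)) :=
    fun x => rfl
  refine ⟨⟨e, ?_, ?_⟩, ?_⟩
  · intro x y hxy
    rw [he, he] at hxy
    exact b.equivFun.injective (hinj (Subtype.ext hxy))
  · intro g x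
    rw [he, he, ← hΦ g, hι]
    congr 2
    have h2 : Matrix.mulVec (rhoM b g) (b.equivFun x) = b.equivFun (rho W p g x) :=
      LinearMap.toMatrix_mulVec_repr b b (rho W p g) x
    exact h2.symm
  · rintro _ ⟨x, rfl⟩
    exact (ι (b.equivFun x)).2

end Exists

end Fermat.Agent.GF.Setup.Plane
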