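/-
GATE-F / GF-SETUP (S0 of GRAPH v1), assembly (helper61).

Setting of the frozen S40 with `M = M' * p`: `W/ℤ`, `Δ ≠ 0`, `p` odd, `W[p]` irreducible, `W`
residually modular of level `M' p`.  With
  `Sset W (M' p) p = {primes of M' p} ∪ {p} ∪ {primes of Δ}`,  `aW W ℓ = a_ℓ(W)`,
  `Q = eigQ (M' p) p Sset aW ⊆ V = Kum_p(F_{M' p})`:

* `exists_setup` : a `G_ℚ`-equivariant copy `C : Plane.Copy W p (M' p)` of `W[p]` with
  `Y₀ = C.Y0 ≤ Q` (2-dimensional, simple, `det = χ_p`, `T_ℓ = a_ℓ(W)`, `ℚ(Y₀) = ℚ(W[p])`: see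
  `GF/Setup/Plane.lean`);
* `exists_nonEis` : a prime `ℓ₀ ∉ Sset` with `a_{ℓ₀}(W) ≢ ℓ₀ + 1 (mod p)`;
* `knew` : (R4) if `W` is NOT residually modular of level `M'` then `α_*` and `β_*` kill `Q ⊇ Y₀`.
-/
import Mathlib
import Fermat.Agent.GF.Setup.Plane
import Fermat.Agent.GF.Setup.Knew
import Fermat.Agent.GF.Setup.NonEisW
import Fermat.Agent.GB.A.A6.Supply

set_option autoImplicit false
set_option linter.unusedSectionVars false

noncomputable section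

namespace Fermat.Agent.GF.Setup.S0

open AlgebraicCurve
open Fermat.Agent.GJ Fermat.Agent.GJ.KumGroup Fermat.Agent.GJ.Kum.KumType
open Fermat.Agent.GK.UQ Fermat.Agent.GK.New Fermat.Agent.GK.UTr Fermat.Agent.GK.AL
open Fermat.Agent.GJ.CycChar Fermat.Agent.GB.A.A6.ECDet Fermat.Agent.GB.A.A6.EigQ
open Fermat.Agent.GF.Setup.Plane

local notation "GQ'" => (AlgebraicClosure ℚ ≃ₐ[ℚ] AlgebraicClosure ℚ)

/-! ### The set of primes and the eigensystem -/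

/-- `{primes of M} ∪ {p} ∪ {primes of Δ_W}` -/
def Sset (W : WeierstrassCurve ℤ) (M p : ℕ) : Finset ℕ :=
  M.primeFactors ∪ insert p W.Δ.natAbs.primeFactors

/-- the eigensystem `ℓ ↦ a_ℓ(W)` -/
def aW (W : WeierstrassCurve ℤ) : ℕ → ℤ := fun ℓ => W.apOfModel ℓ

theorem aW_apply (W : WeierstrassCurve ℤ) (ℓ : ℕ) : aW W ℓ = W.apOfModel ℓ := rfl

section Sset

variable (W : WeierstrassCurve ℤ) (M p : ℕ)

theorem hMS [NeZero M] : ∀ q : ℕ, q.Prime → q ∣ M → q ∈ Sset W M p := fun _ hq hqM =>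
  Finset.mem_union_left _ (Nat.mem_primeFactors.mpr ⟨hq, hqM, NeZero.ne M⟩)

theorem hpS : p ∈ Sset W M p :=
  Finset.mem_union_right _ (Finset.mem_insert_self _ _)

theorem hΔS (hΔ : W.Δ ≠ 0) : ∀ ℓ : ℕ, ℓ.Prime → (ℓ : ℤ) ∣ W.Δ → ℓ ∈ Sset W M p :=
  fun _ hℓ h => Finset.mem_union_right _ (Finset.mem_insert_of_mem
    (Nat.mem_primeFactors.mpr ⟨hℓ, Int.natCast_dvd.mp h, Int.natAbs_ne_zero.mpr hΔ⟩))

variable {W M p}

/-- a prime outside `Sset` is good for `W`, prime to `M` and `≠ p`. -/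
theorem good_of_notMem [NeZero M] (hΔ : W.Δ ≠ 0) {ℓ : ℕ} (hℓ : ℓ.Prime) (h : ℓ ∉ Sset W M p) :
    W.IsGoodPrimeFor ℓ ∧ ¬ ℓ ∣ M ∧ ℓ ≠ p :=
  ⟨fun hb => h (hΔS W M p hΔ ℓ hℓ hb), fun hd => h (hMS W M p ℓ hℓ hd),
    fun he => h (he ▸ hpS W M p)⟩

/-- conversely (at level `M' * p`): good, prime to `M'` and `≠ p` ⟹ outside `Sset`. -/
theorem notMem_of_good {M' : ℕ} (hp : p.Prime) {ℓ : ℕ} (hℓ : ℓ.Prime)
    (hgood : W.IsGoodPrimeFor ℓ) (hℓM' : ¬ ℓ ∣ M') (hℓp : ℓ ≠ p) : ℓ ∉ Sset W (M' * p) p := by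
  intro h
  rcases Finset.mem_union.1 h with h | h
  · rcases (Nat.Prime.dvd_mul hℓ).1 (Nat.dvd_of_mem_primeFactors h) with h' | h'
    · exact hℓM' h'
    · exact hℓp ((Nat.prime_dvd_prime_iff_eq hℓ hp).1 h')
  · rcases Finset.mem_insert.1 h with h | h
    · exact hℓp h
    · exact hgood (Int.natCast_dvd.mpr (Nat.dvd_of_mem_primeFactors h))

end Sset

/-! ### `#W[p] = p²` -/

theorem hcard_of (W : WeierstrassCurve ℤ) (hΔ : W.Δ ≠ 0) (p : ℕ) [Fact p.Prime] :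
    Nat.card (Tp W p) = p ^ 2 := by
  have h : ((W.map (Int.castRingHom ℚ)).map (algebraMap ℚ (AlgebraicClosure ℚ))).Δ ≠ 0 := by
    rw [WeierstrassCurve.map_Δ, WeierstrassCurve.map_Δ]
    simpa using hΔ
  exact Fermat.Agent.GE.Tors.card_torsionBy h p (Fact.out : p.Prime).one_le

/-! ### S0 -/

section Main

variable (W : WeierstrassCurve ℤ) (hΔ : W.Δ ≠ 0) {p : ℕ} [Fact p.Prime] (hp2 : p ≠ 2)
  (hirr : W.ModRepIsIrreducible p) {M' : ℕ} [NeZero M']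

include hΔ hp2 hirr in
/-- **S0, the plane**: in the setting of S40 (`M = M' p`) the eigenspace
`Q = eigQ (M' p) p Sset aW ⊆ Kum_p(F_{M' p})` contains a `G_ℚ`-equivariant copy `Y₀` of `W[p]`. -/
theorem exists_setup (hmod : W.IsResiduallyModularOfLevel p (M' * p)) :
    ∃ C : Copy W p (M' * p),
      C.Y0 ≤ eigQ (M' * p) p (Sset W (M' * p) p) (hMS W (M' * p) p) (aW W) := by
  have hQ : eigQ (M' * p) p (Sset W (M' * p) p) (hMS W (M' * p) p) (aW W) ≠ ⊥ :=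
    Fermat.Agent.GB.A.A6.Supply.eigQ_ne_bot W hmod _ _ (hpS W _ p) (hΔS W _ p hΔ) (aW W)
      (fun _ _ _ => rfl)
  exact exists_copy hΔ (hcard_of W hΔ p) hirr hp2 _ _ (hpS W _ p) (aW W) (fun _ _ _ _ => rfl) hQ

include hΔ hp2 hirr in
/-- **S0, NON-EIS**: a prime `ℓ₀ ∉ Sset` with `a_{ℓ₀}(W) ≢ ℓ₀ + 1 (mod p)`. -/
theorem exists_nonEis (M : ℕ) :
    ∃ ℓ₀ : ℕ, ℓ₀.Prime ∧ ℓ₀ ∉ Sset W M p ∧
      ((aW W ℓ₀ : ℤ) : ZMod p) ≠ ((ℓ₀ : ℕ) : ZMod p) + 1 := by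
  obtain ⟨ℓ, hℓ, hℓS, -, -, hne⟩ :=
    NonEisW.exists_prime_ne_succ hΔ (hcard_of W hΔ p) hirr hp2 (Sset W M p)
  exact ⟨ℓ, hℓ, hℓS, hne⟩

/-- `p ∥ M' p` -/
theorem exactDvd (hpM' : ¬ p ∣ M') : ExactDvd p (M' * p) where
  prime := Fact.out
  dvd := Dvd.intro_left M' rfl
  not_sq := by
    intro h
    rw [pow_two] at h
    exact hpM' ((Nat.mul_dvd_mul_iff_right (Fact.out : p.Prime).pos).1 h)

/-- **S0, (R4)**: if `W` is NOT residually modular of level `M'`, then `α_*` and `β_* = α_* ∘ W_p`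
kill the eigenspace `Q` (hence `Y₀ ⊆ Knew`). -/
theorem knew (hpM' : ¬ p ∣ M') (hnot : ¬ W.IsResiduallyModularOfLevel p M')
    {x : Additive (Kum Kb (FK (M' * p)) p)}
    (hx : x ∈ eigQ (M' * p) p (Sset W (M' * p) p) (hMS W (M' * p) p) (aW W)) :
    aLow M' p p x = 0 ∧ bLow (exactDvd hpM') p x = 0 :=
  Knew.aLow_bLow_eq_zero (exactDvd hpM') (hMS W (M' * p) p) (hpS W _ p) (aW W) W
    (fun _ hℓ hgood hℓM' hℓp => notMem_of_good (Fact.out : p.Prime) hℓ hgood hℓM' hℓp)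
    (fun _ _ _ => rfl) hnot hx

end Main

end Fermat.Agent.GF.Setup.S0
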