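/-
GATE-F / GF-SETUP → GF-SHAPE plug (helper61): the plane `Y₀ = C.Y0` of `GF/Setup/Plane.lean`
satisfies the fields `stab`, `finrank_eq`, `det_eq`, `chi_ne` of helper96's `ShapeHyp`
(`GF/Shape/Sub.lean`) at the inertia group of any `A | p`; the remaining fields `unip` ((U)) and
`not_le` ([SS]) are binders.
-/
import Mathlib
import Fermat.Agent.GF.Setup.Plane
import Fermat.Agent.GF.Shape.Sub
import Fermat.Agent.GF.Shape.Cyc

set_option autoImplicit false
set_option linter.unusedSectionVars false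

noncomputable section

namespace Fermat.Agent.GF.Setup.ShapePlug

open AlgebraicCurve
open Fermat.Agent.GJ Fermat.Agent.GJ.KumGroup Fermat.Agent.GJ.Kum.KumType
open Fermat.Agent.GJ.CycChar Fermat.Agent.GB.A.A6.ECDet
open Fermat.Agent.GF.Setup.Plane Fermat.Agent.GF.Shape.Sub Fermat.Agent.GF.Shape.Cyc

variable {W : WeierstrassCurve ℤ} {p : ℕ} [Fact p.Prime] {M : ℕ} [NeZero M]

/-- **S0 → S1**: `ShapeHyp` for `Y₀` from (U) and [SS]. -/
theorem shapeHyp (C : Copy W p M) (hΔ : W.Δ ≠ 0) (hcard : Nat.card (Tp W p) = p ^ 2)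
    (hirr : W.ModRepIsIrreducible p) (hp2 : p ≠ 2)
    (A : ValuationSubring (AlgebraicClosure ℚ))
    (hA : (p : AlgebraicClosure ℚ) ∈ A.nonunits)
    (M₀ : AddSubgroup (Additive (Kum Kb (FK M) p)))
    (unip : ∀ σ ∈ A.inertiaSubgroupIn ℚ, ∀ y ∈ C.Y0, gal M p σ y - y ∈ M₀)
    (not_le : ¬ (C.Y0 : Set (Additive (Kum Kb (FK M) p))) ⊆ M₀) :
    ShapeHyp (gal M p) (A.inertiaSubgroupIn ℚ) C.Y0 M₀
      (fun σ => ((cyc p σ : (ZMod p)ˣ) : ZMod p)) where
  stab := fun σ _ _ hy => C.gal_mem σ hy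
  finrank_eq := C.finrank_Y0 hcard
  unip := unip
  not_le := not_le
  det_eq := fun σ _ => C.det_restrict hΔ hcard hirr σ _
  chi_ne := exists_inertia_cyc_ne_one hp2 A hA

end Fermat.Agent.GF.Setup.ShapePlug
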