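/-
GATE-F / GF-SETUP, transfer S2 → `Y₀` (helper61): helper57's `GF/Peu/Field.peu_valuation`
(peu ramifiée from a finite `Δ`-stable order) applied ON THE PLANE `Y₀ = C.Y0 ⊆ Kum_p(F_M)` of
`GF/Setup/Plane.lean`, with the S1 shape taken from helper96's `LineData`.

* `actY0 C` : the Galois action on `Y₀` as additive maps;
* `hasFinOrder_actY0` : `HasFinOrder p` passes from the FROZEN `W[p]` (`rho W p`) to `Y₀`
  (`HasFinOrder.of_injective` along `C.equiv.symm`);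
* `peu_valuation_Y0` : **S2 on `Y₀`**: for `y ∈ Y₀`, every `γ ∈ ℚ̄^×` with `γ^p ∈ K'` and
  `γ ∈ K'(y)` (Galois form) has `v(γ^p) = v(β)^p` for some `β ∈ K'^×`.
-/
import Mathlib
import Fermat.Agent.GF.Setup.Plane
import Fermat.Agent.GF.Shape.Sub
import Fermat.Agent.GF.Peu.Field

set_option autoImplicit false
set_option linter.unusedSectionVars false

noncomputable section

namespace Fermat.Agent.GF.Setup.PeuY0

open AlgebraicCurve
open Fermat.Agent.Common_helper32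
open Fermat.Agent.GJ Fermat.Agent.GJ.KumGroup Fermat.Agent.GJ.Kum.KumType
open Fermat.Agent.GJ.CycChar Fermat.Agent.GB.A.A6.ECDet
open Fermat.Agent.GH.Closure Fermat.Agent.GF.Peu
open Fermat.Agent.GF.Setup.Plane Fermat.Agent.GF.Shape.Sub

variable {W : WeierstrassCurve ℤ} {p : ℕ} [Fact p.Prime] {M : ℕ} [NeZero M] (C : Copy W p M)

/-- the Galois action on `Y₀` as additive maps -/
def actY0 : GQ → C.Y0 →+ C.Y0 := fun σ =>
  ((gal M p σ).restrict (fun _ hy => C.gal_mem σ hy)).toAddMonoidHom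

theorem coe_actY0 (σ : GQ) (y : C.Y0) :
    ((actY0 C σ y : C.Y0) : Additive (Kum Kb (FK M) p)) = gal M p σ y := rfl

/-- `HasFinOrder` passes from the frozen `W[p]` to `Y₀`. -/
theorem hasFinOrder_actY0
    (h : HasFinOrder p (fun σ : GQ => (rho W p σ).toAddMonoidHom)) :
    HasFinOrder p (actY0 C) := by
  refine h.of_injective (C.equiv.symm : C.Y0 ≃ₗ[ZMod p] Tp W p).toLinearMap.toAddMonoidHom
    C.equiv.symm.injective ?_
  intro σ y
  obtain ⟨x, rfl⟩ := C.equiv.surjective y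
  show C.equiv.symm (actY0 C σ (C.equiv x)) = rho W p σ (C.equiv.symm (C.equiv x))
  rw [LinearEquiv.symm_apply_apply]
  apply C.equiv.injective
  rw [LinearEquiv.apply_symm_apply]
  apply Subtype.ext
  rw [coe_actY0, C.equiv_rho]

variable {C}

/-- **S2 on `Y₀`** (peu ramifiée): S1 (`LineData`) + `HasFinOrder` on `W[p]`. -/
theorem peu_valuation_Y0 (hp2 : p ≠ 2)
    (h : HasFinOrder p (fun σ : GQ => (rho W p σ).toAddMonoidHom))
    {A : ValuationSubring Qb} (hA : (p : Qb) ∈ A.nonunits) {ζ : Qb} (hζ : IsPrimitiveRoot ζ p)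
    {M₀ : AddSubgroup (Additive (Kum Kb (FK M) p))}
    (D : LineData (gal M p) (A.inertiaSubgroupIn ℚ) C.Y0 M₀
      (fun σ => ((cyc p σ : (ZMod p)ˣ) : ZMod p)))
    {y : Additive (Kum Kb (FK M) p)} (hy : y ∈ C.Y0)
    {γ : Qb} (hγ0 : γ ≠ 0) (hγp : ∀ ρ : GQ, IsTameFix A ζ ρ → ρ (γ ^ p) = γ ^ p)
    (hγL : ∀ ρ : GQ, IsTameFix A ζ ρ → gal M p ρ y = y → ρ γ = γ) :
    ∃ β : Qb, β ≠ 0 ∧ (∀ ρ : GQ, IsTameFix A ζ ρ → ρ β = β) ∧
      A.valuation (γ ^ p) = A.valuation β ^ p := by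
  have hp : p.Prime := Fact.out
  set w0 : C.Y0 := ⟨D.w₀, D.mem_Y⟩ with hw0def
  have hw0 : w0 ≠ 0 := fun h0 => D.ne_zero (congrArg Subtype.val h0)
  have hpw : p • w0 = 0 := by
    rw [← Nat.cast_smul_eq_nsmul (ZMod p), ZMod.natCast_self, zero_smul]
  have hω : ∀ σ ∈ A.inertiaSubgroupIn ℚ, ∀ k : ℕ, σ ζ = ζ ^ k → actY0 C σ w0 = k • w0 := by
    intro σ hσ k hk
    apply Subtype.ext
    rw [coe_actY0, D.act σ hσ, (cyc_eq_natCast_iff hζ σ k).2 hk, Nat.cast_smul_eq_nsmul]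
    rfl
  have hshape : ∀ ρ : GQ, IsTameFix A ζ ρ → ∃ κ : ℕ,
      actY0 C ρ ⟨y, hy⟩ = ⟨y, hy⟩ + κ • w0 := by
    intro ρ hρ
    refine ⟨(D.kappa y ρ).val, Subtype.ext ?_⟩
    have h1 := D.kappa_spec ρ hρ.1 y hy
    rw [coe_actY0]
    have h2 : gal M p ρ y = y + D.kappa y ρ • D.w₀ := by rw [← h1]; abel
    rw [h2, Submodule.coe_add, ← Nat.cast_smul_eq_nsmul (ZMod p), ZMod.natCast_zmod_val]
    rfl
  refine peu_valuation hp2 (hasFinOrder_actY0 C h) hA hζ hw0 hpw hω ⟨y, hy⟩ hshape hγ0 hγp ?_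
  intro ρ hρ hfix
  exact hγL ρ hρ (congrArg Subtype.val hfix)

end Fermat.Agent.GF.Setup.PeuY0
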