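/-
GATE-F / GF-SETUP, transfer S2 → `Y₀`, S44 route (helper61; RULING-2 §2 of helper13, board 6195):
the twin of `PeuY0.peu_valuation_Y0` with the binder `HasFinOrder` (good reduction, S40) REPLACED
by helper70's pin `GF/ETate/Pin.KummerUnit W p A ζ` (multiplicative reduction, Tate curve, S44).

* `peu_valuation_Y0'` : **S2 on `Y₀`** from `KummerUnit W p A ζ` + S1 (`LineData`): for `y ∈ Y₀`,
  every `γ ∈ ℚ̄^×` with `γ^p ∈ K'` and `γ ∈ K'(y)` (Galois form) has `v(γ^p) = v(β)^p` for some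
  `β ∈ K'^×`.  Same conclusion, same other binders as `peu_valuation_Y0`.
* `peu_field_Y0'` : the field form (`γ^p = u β^p`, `u ∈ A^×`).
-/
import Mathlib
import Fermat.Agent.GF.Setup.PeuY0
import Fermat.Agent.GF.ETate.Pin

set_option autoImplicit false
set_option linter.unusedSectionVars false

noncomputable section

namespace Fermat.Agent.GF.Setup.PeuY0K

open AlgebraicCurve
open Fermat.Agent.Common_helper32
open Fermat.Agent.GJ Fermat.Agent.GJ.KumGroup Fermat.Agent.GJ.Kum.KumType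
open Fermat.Agent.GJ.CycChar Fermat.Agent.GB.A.A6.ECDet
open Fermat.Agent.GH.Closure Fermat.Agent.GF.Peu Fermat.Agent.GF.ETate
open Fermat.Agent.GF.Setup.Plane Fermat.Agent.GF.Shape.Sub

variable {W : WeierstrassCurve ℤ} {p : ℕ} [Fact p.Prime] {M : ℕ} [NeZero M] {C : Copy W p M}

/-- the S1 shape on `Y₀` pulled back to the frozen `W[p]` along `C.e`. -/
theorem exists_pullback {A : ValuationSubring Qb} {ζ : Qb} (hζ : IsPrimitiveRoot ζ p)
    {M₀ : AddSubgroup (Additive (Kum Kb (FK M) p))}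
    (D : LineData (gal M p) (A.inertiaSubgroupIn ℚ) C.Y0 M₀
      (fun σ => ((cyc p σ : (ZMod p)ˣ) : ZMod p)))
    {y : Additive (Kum Kb (FK M) p)} (hy : y ∈ C.Y0) :
    ∃ w0 x : Tp W p, C.e w0 = D.w₀ ∧ C.e x = y ∧ w0 ≠ 0 ∧
      (∀ σ ∈ A.inertiaSubgroupIn ℚ, ∀ k : ℕ, σ ζ = ζ ^ k → rho W p σ w0 = k • w0) ∧
      (∀ ρ : GQ, IsTameFix A ζ ρ → ∃ κ : ℕ, rho W p ρ x = x + κ • w0) := by
  obtain ⟨w0, hw0⟩ := C.exists_of_mem D.mem_Y
  obtain ⟨x, hx⟩ := C.exists_of_mem hy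
  refine ⟨w0, x, hw0, hx, ?_, ?_, ?_⟩
  · rintro rfl
    rw [map_zero] at hw0
    exact D.ne_zero hw0.symm
  · intro σ hσ k hk
    apply C.inj
    rw [C.equivariant, hw0, D.act σ hσ, (cyc_eq_natCast_iff hζ σ k).2 hk, Nat.cast_smul_eq_nsmul,
      map_nsmul, hw0]
  · intro ρ hρ
    refine ⟨(D.kappa y ρ).val, ?_⟩
    apply C.inj
    have h1 := D.kappa_spec ρ hρ.1 y hy
    have h2 : gal M p ρ y = y + D.kappa y ρ • D.w₀ := by rw [← h1]; abel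
    rw [C.equivariant, hx, h2, map_add, map_nsmul, hx, hw0, ← Nat.cast_smul_eq_nsmul (ZMod p),
      ZMod.natCast_zmod_val]

/-- **S2 on `Y₀`, valuation form, from the Kummer unit of the E-side** (S44 route). -/
theorem peu_valuation_Y0' {A : ValuationSubring Qb} {ζ : Qb} (hζ : IsPrimitiveRoot ζ p)
    (h : KummerUnit W p A ζ)
    {M₀ : AddSubgroup (Additive (Kum Kb (FK M) p))}
    (D : LineData (gal M p) (A.inertiaSubgroupIn ℚ) C.Y0 M₀
      (fun σ => ((cyc p σ : (ZMod p)ˣ) : ZMod p)))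
    {y : Additive (Kum Kb (FK M) p)} (hy : y ∈ C.Y0)
    {γ : Qb} (hγ0 : γ ≠ 0) (hγp : ∀ ρ : GQ, IsTameFix A ζ ρ → ρ (γ ^ p) = γ ^ p)
    (hγL : ∀ ρ : GQ, IsTameFix A ζ ρ → gal M p ρ y = y → ρ γ = γ) :
    ∃ β : Qb, β ≠ 0 ∧ (∀ ρ : GQ, IsTameFix A ζ ρ → ρ β = β) ∧
      A.valuation (γ ^ p) = A.valuation β ^ p := by
  obtain ⟨w0, x, -, hx, hw0, hω, hshape⟩ := exists_pullback hζ D hy
  refine peu_valuation_of_kummerUnit hζ h hw0 hω x hshape hγ0 hγp ?_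
  intro ρ hρ hfix
  apply hγL ρ hρ
  rw [← hx, ← C.equivariant, hfix]

/-- **S2 on `Y₀`, field form, from the Kummer unit of the E-side** (S44 route). -/
theorem peu_field_Y0' {A : ValuationSubring Qb} {ζ : Qb} (hζ : IsPrimitiveRoot ζ p)
    (h : KummerUnit W p A ζ)
    {M₀ : AddSubgroup (Additive (Kum Kb (FK M) p))}
    (D : LineData (gal M p) (A.inertiaSubgroupIn ℚ) C.Y0 M₀
      (fun σ => ((cyc p σ : (ZMod p)ˣ) : ZMod p)))
    {y : Additive (Kum Kb (FK M) p)} (hy : y ∈ C.Y0)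
    {γ : Qb} (hγ0 : γ ≠ 0) (hγp : ∀ ρ : GQ, IsTameFix A ζ ρ → ρ (γ ^ p) = γ ^ p)
    (hγL : ∀ ρ : GQ, IsTameFix A ζ ρ → gal M p ρ y = y → ρ γ = γ) :
    ∃ β u : Qb, β ≠ 0 ∧ (∀ ρ : GQ, IsTameFix A ζ ρ → ρ β = β) ∧ u ∈ A ∧ u⁻¹ ∈ A ∧
      γ ^ p = u * β ^ p := by
  obtain ⟨w0, x, -, hx, hw0, hω, hshape⟩ := exists_pullback hζ D hy
  refine peu_field_of_kummerUnit hζ h hw0 hω x hshape hγ0 hγp ?_
  intro ρ hρ hfix
  apply hγL ρ hρ
  rw [← hx, ← C.equivariant, hfix]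

end Fermat.Agent.GF.Setup.PeuY0K
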