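/-
GATE-F / GF-SETUP (S0 of GRAPH v1), abstract algebra (helper61).  Mathlib only.

A nonzero module `Q` over the matrix algebra `M₂(k)` (given as an algebra hom
`Φ : M₂(k) → End_k Q`) contains a copy of the standard module `k²`:
an injective `k`-linear `ι : k² → Q` with `Φ m (ι v) = ι (m *ᵥ v)`.

* `exists_embedding` : the statement above.
-/
import Mathlib

set_option autoImplicit false

namespace Fermat.Agent.GF.Setup.Y0Abs

open Matrix

variable {k : Type*} [Field k] {Q : Type*} [AddCommGroup Q] [Module k Q]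

/-- the matrix units of `M₂(k)` -/
abbrev E (i j : Fin 2) : Matrix (Fin 2) (Fin 2) k := Matrix.single i j (1 : k)

theorem E_mul_E (i j l m : Fin 2) :
    (E i j : Matrix (Fin 2) (Fin 2) k) * E l m = if j = l then E i m else 0 := by
  by_cases h : j = l
  · subst h
    rw [if_pos rfl, E, E, Matrix.single_mul_single_same, mul_one]
  · rw [if_neg h, E, E, Matrix.single_mul_single_of_ne _ _ _ _ h]

theorem one_eq_E : (1 : Matrix (Fin 2) (Fin 2) k) = E 0 0 + E 1 1 := by
  ext i j
  fin_cases i <;> fin_cases j <;> simp [E, Matrix.single]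

theorem mul_E_zero (m : Matrix (Fin 2) (Fin 2) k) (j : Fin 2) :
    m * E j 0 = m 0 j • E 0 0 + m 1 j • E 1 0 := by
  ext a b
  fin_cases a <;> fin_cases b <;> fin_cases j <;>
    simp [E, Matrix.single, Matrix.mul_apply]

/-- **a nonzero `M₂(k)`-module contains the standard module.** -/
theorem exists_embedding [Nontrivial Q]
    (Φ : Matrix (Fin 2) (Fin 2) k →ₐ[k] Module.End k Q) :
    ∃ ι : (Fin 2 → k) →ₗ[k] Q, Function.Injective ι ∧
      ∀ (m : Matrix (Fin 2) (Fin 2) k) (v : Fin 2 → k), Φ m (ι v) = ι (m *ᵥ v) := by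
  classical
  have hmul : ∀ (a b : Matrix (Fin 2) (Fin 2) k) (x : Q), Φ a (Φ b x) = Φ (a * b) x := by
    intro a b x
    rw [map_mul, Module.End.mul_apply]
  -- a nonzero vector fixed by `e₀₀`
  obtain ⟨y, hy0, hy⟩ : ∃ y : Q, y ≠ 0 ∧ Φ (E 0 0) y = y := by
    obtain ⟨x, hx⟩ := exists_ne (0 : Q)
    by_cases h : Φ (E 0 0) x = 0
    · have h1 : Φ (E 1 1) x = x := by
        have h2 : Φ (1 : Matrix (Fin 2) (Fin 2) k) x = x := by
          rw [map_one, Module.End.one_apply]
        rw [one_eq_E, map_add, LinearMap.add_apply, h, zero_add] at h2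
        exact h2
      refine ⟨Φ (E 0 1) x, ?_, ?_⟩
      · intro h3
        apply hx
        have h4 : Φ (E 1 0) (Φ (E 0 1) x) = x := by
          rw [hmul, E_mul_E, if_pos rfl, h1]
        rw [← h4, h3, map_zero]
      · rw [hmul, E_mul_E, if_pos rfl]
    · refine ⟨Φ (E 0 0) x, h, ?_⟩
      rw [hmul, E_mul_E, if_pos rfl]
  -- the embedding `v ↦ v₀ y + v₁ e₁₀ y`
  let ι : (Fin 2 → k) →ₗ[k] Q :=
    (LinearMap.proj 0 : (Fin 2 → k) →ₗ[k] k).smulRight y +
      (LinearMap.proj 1 : (Fin 2 → k) →ₗ[k] k).smulRight (Φ (E 1 0) y)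
  have hι : ∀ v : Fin 2 → k, ι v = v 0 • y + v 1 • Φ (E 1 0) y := fun v => rfl
  have hΦy : ∀ (m : Matrix (Fin 2) (Fin 2) k) (j : Fin 2),
      Φ m (Φ (E j 0) y) = m 0 j • y + m 1 j • Φ (E 1 0) y := by
    intro m j
    rw [hmul, mul_E_zero, map_add, map_smul, map_smul, LinearMap.add_apply, LinearMap.smul_apply,
      LinearMap.smul_apply, hy]
  refine ⟨ι, ?_, ?_⟩
  · rw [← LinearMap.ker_eq_bot, LinearMap.ker_eq_bot']
    intro v hv
    rw [hι] at hv
    have h0 : v 0 = 0 := by
      have h1 := congrArg (Φ (E 0 0)) hv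
      rw [map_add, map_smul, map_smul, hy, hmul, E_mul_E, if_neg (by decide), map_zero,
        LinearMap.zero_apply, smul_zero, add_zero, map_zero] at h1
      exact (smul_eq_zero.1 h1).resolve_right hy0
    have h1 : v 1 = 0 := by
      have h2 := congrArg (Φ (E 0 1)) hv
      rw [map_add, map_smul, map_smul, hmul, E_mul_E, if_pos rfl, hy, h0, zero_smul, zero_add,
        map_zero] at h2
      exact (smul_eq_zero.1 h2).resolve_right hy0
    ext i
    fin_cases i
    · exact h0
    · exact h1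
  · intro m v
    rw [hι, hι, map_add, map_smul, map_smul]
    have e0 : Φ m y = m 0 0 • y + m 1 0 • Φ (E 1 0) y := by
      have := hΦy m 0
      rwa [hy] at this
    rw [e0, hΦy m 1]
    simp only [Matrix.mulVec, dotProduct, Fin.sum_univ_two, smul_add, smul_smul, add_smul]
    rw [mul_comm (v 0) (m 0 0), mul_comm (v 0) (m 1 0), mul_comm (v 1) (m 0 1),
      mul_comm (v 1) (m 1 1)]
    abel

end Fermat.Agent.GF.Setup.Y0Abs
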